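/-
S36, modular part, task S36-MOD-CNT (helper151).  Step 1: the fundamental identity
`∑ e f = n` in a Dedekind extension, in "squeeze" form.
-/
import Mathlib

set_option autoImplicit false
set_option linter.deprecated false

namespace Fermat.Agent.S36.Mod.Count

open Ideal IsDedekindDomain Module

/-- a purely numerical squeeze -/
theorem squeeze {ι P : Type*} [Fintype ι] [DecidableEq P] (s : Finset P) (ν : ι → P)
    (hν : ∀ i, ν i ∈ s) (hinj : Function.Injective ν) (e f : P → ℕ) (he : ∀ Q ∈ s, 0 < e Q)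
    (hf : ∀ Q ∈ s, 0 < f Q) (a b : ι → ℕ) (ha : ∀ i, a i ≤ e (ν i)) (hb : ∀ i, b i ≤ f (ν i))
    (hsum : ∑ Q ∈ s, e Q * f Q ≤ ∑ i, a i * b i) :
    (∀ Q ∈ s, ∃ i, Q = ν i) ∧ ∀ i, a i = e (ν i) ∧ b i = f (ν i) := by
  classical
  have h1 : ∑ i, e (ν i) * f (ν i) = ∑ Q ∈ Finset.univ.image ν, e Q * f Q :=
    (Finset.sum_image (f := fun Q => e Q * f Q) (fun i _ j _ h => hinj h)).symm
  have hsub : Finset.univ.image ν ⊆ s := by
    intro Q hQ
    obtain ⟨i, -, rfl⟩ := Finset.mem_image.mp hQ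
    exact hν i
  have h2 : ∑ Q ∈ Finset.univ.image ν, e Q * f Q ≤ ∑ Q ∈ s, e Q * f Q :=
    Finset.sum_le_sum_of_subset hsub
  have h3 : ∀ i ∈ (Finset.univ : Finset ι), a i * b i ≤ e (ν i) * f (ν i) :=
    fun i _ => Nat.mul_le_mul (ha i) (hb i)
  have h4 : ∑ i, a i * b i ≤ ∑ i, e (ν i) * f (ν i) := Finset.sum_le_sum h3
  constructor
  · intro Q hQ
    by_contra hcon
    push Not at hcon
    have hQ' : Q ∉ Finset.univ.image ν := by
      intro h
      obtain ⟨i, -, rfl⟩ := Finset.mem_image.mp h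
      exact hcon i rfl
    have h5 : ∑ Q ∈ Finset.univ.image ν, e Q * f Q < ∑ Q ∈ s, e Q * f Q :=
      Finset.sum_lt_sum_of_subset hsub hQ hQ' (Nat.mul_pos (he Q hQ) (hf Q hQ))
        (fun _ _ _ => Nat.zero_le _)
    omega
  · have h5 : ∑ i, a i * b i = ∑ i, e (ν i) * f (ν i) := by omega
    have h6 := (Finset.sum_eq_sum_iff_of_le h3).mp h5
    intro i
    have h7 := h6 i (Finset.mem_univ i)
    have e0 := he _ (hν i)
    have f0 := hf _ (hν i)
    have a1 := ha i
    have b1 := hb i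
    constructor
    · by_contra hne
      have hlt : a i < e (ν i) := lt_of_le_of_ne a1 hne
      have : a i * b i < e (ν i) * f (ν i) :=
        calc a i * b i ≤ a i * f (ν i) := Nat.mul_le_mul_left _ b1
          _ < e (ν i) * f (ν i) := Nat.mul_lt_mul_of_pos_right hlt f0
      omega
    · by_contra hne
      have hlt : b i < f (ν i) := lt_of_le_of_ne b1 hne
      have : a i * b i < e (ν i) * f (ν i) :=
        calc a i * b i ≤ e (ν i) * b i := Nat.mul_le_mul_right _ a1
          _ < e (ν i) * f (ν i) := Nat.mul_lt_mul_of_pos_left hlt e0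
      omega

variable {R S : Type*} [CommRing R] [CommRing S] [Algebra R S] [IsDedekindDomain R]
  [IsDedekindDomain S] (K L : Type*) [Field K] [Field L] [Algebra R K] [IsFractionRing R K]
  [Algebra S L] [IsFractionRing S L] [Algebra K L] [Algebra R L] [IsScalarTower R S L]
  [IsScalarTower R K L] [Module.Finite R S] [Module.IsTorsionFree R S]

/-- The fundamental identity, squeeze form. -/
theorem ded_count (p : Ideal R) [p.IsMaximal] (hp0 : p ≠ ⊥) {ι : Type*} [Fintype ι]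
    (P : ι → Ideal S) (hP : ∀ i, (P i).IsPrime) (hPp : ∀ i, (P i).LiesOver p)
    (hinj : Function.Injective P) (a b : ι → ℕ)
    (ha : ∀ i, a i ≤ ramificationIdx' p (P i)) (hb : ∀ i, b i ≤ inertiaDeg' p (P i))
    (hsum : finrank K L ≤ ∑ i, a i * b i) :
    (∀ Q : Ideal S, Q.IsPrime → Q.LiesOver p → ∃ i, Q = P i) ∧
      ∀ i, a i = ramificationIdx' p (P i) ∧ b i = inertiaDeg' p (P i) := by
  classical
  have hmem : ∀ Q : Ideal S, Q ∈ IsDedekindDomain.primesOverFinset p S ↔ Q.IsPrime ∧ Q.LiesOver p := fun Q =>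
    IsDedekindDomain.mem_primesOverFinset_iff hp0 S
  obtain ⟨h1, h2⟩ := squeeze (IsDedekindDomain.primesOverFinset p S) P (fun i => (hmem _).mpr ⟨hP i, hPp i⟩) hinj
    (fun Q => ramificationIdx' p Q) (fun Q => inertiaDeg' p Q)
    (fun Q hQ => by
      obtain ⟨hQ1, hQ2⟩ := (hmem Q).mp hQ
      exact Nat.pos_of_ne_zero (IsDedekindDomain.ramificationIdx'_ne_zero_of_liesOver Q hp0))
    (fun Q hQ => by
      obtain ⟨hQ1, hQ2⟩ := (hmem Q).mp hQ
      exact inertiaDeg'_pos p Q)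
    a b ha hb (by rw [sum_ramification_inertia S K L hp0]; exact hsum)
  exact ⟨fun Q hQ1 hQ2 => h1 Q ((hmem Q).mpr ⟨hQ1, hQ2⟩), h2⟩

end Fermat.Agent.S36.Mod.Count
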