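/-
S36, modular part, task S36-MOD-CNT (helper151).  Step 2: the squeeze in terms of the adic
valuations of a Dedekind extension `A ⊆ B`, `K ⊆ L`.
-/
import Fermat.Agent.S36.Mod.Count.Ded

set_option autoImplicit false
set_option linter.deprecated false
set_option linter.style.haveILetI false
set_option linter.unusedSectionVars false

namespace Fermat.Agent.S36.Mod.Count

open Ideal IsDedekindDomain Module WithZero HeightOneSpectrum

/-! ### A lemma on `ℤᵐ⁰`-valued valuations -/

section Zm0

variable {L : Type*} [Field L] (V : Valuation L ℤᵐ⁰)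

theorem le_of_div_pow_le_one {τ p : L} (hτ0 : τ ≠ 0) (hτ : V τ < 1) {e a : ℕ}
    (hp : V p = exp (-(e : ℤ))) (h : V (p / τ ^ a) ≤ 1) : a ≤ e ∧
      (a = e → 0 < a → V τ = exp (-1 : ℤ) ∧ V (p / τ ^ a) = 1) := by
  have h0 : V τ ≠ 0 := (Valuation.ne_zero_iff V).mpr hτ0
  obtain ⟨t, ht⟩ : ∃ t : ℤ, V τ = exp (-t) := ⟨-log (V τ), by rw [neg_neg, exp_log h0]⟩
  have ht1 : 1 ≤ t := by
    rw [ht, ← exp_zero, exp_lt_exp] at hτ
    omega
  have hval : V (p / τ ^ a) = exp (-(e : ℤ) + a * t) := by
    rw [map_div₀, map_pow, hp, ht, ← exp_nsmul, ← exp_sub]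
    congr 1
    simp
  rw [hval, ← exp_zero, exp_le_exp] at h
  have hat : (a : ℤ) ≤ a * t := by nlinarith
  refine ⟨by omega, fun hae ha0 => ?_⟩
  subst hae
  have ht' : t = 1 := by
    have ha0' : (0 : ℤ) < a := by exact_mod_cast ha0
    nlinarith
  subst ht'
  refine ⟨ht, ?_⟩
  rw [hval, ← exp_zero]
  congr 1
  ring

end Zm0

variable {A K : Type*} (L : Type*) {B : Type*}
variable [CommRing A] [IsDedekindDomain A] [CommRing B] [IsDedekindDomain B] [Algebra A B]
  [Module.IsTorsionFree A B] [Module.Finite A B]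
variable [Field K] [Field L] [Algebra K L]
variable [Algebra A K] [IsFractionRing A K] [Algebra A L] [IsScalarTower A K L]
variable [Algebra B L] [IsFractionRing B L] [IsScalarTower A B L]

section One

variable (v : HeightOneSpectrum A) (w : HeightOneSpectrum B) [w.asIdeal.LiesOver v.asIdeal]

theorem valuation_unif {ϖ : A} (hϖ : v.intValuation ϖ = exp (-1 : ℤ)) :
    w.valuation L (algebraMap A L ϖ)
      = exp (-((v.asIdeal.ramificationIdx' w.asIdeal : ℕ) : ℤ)) := by
  rw [IsScalarTower.algebraMap_apply A B L, valuation_of_algebraMap, ← intValuation_liesOver v w,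
    hϖ, ← exp_nsmul]
  congr 1
  simp

omit [Module.IsTorsionFree A B] [Module.Finite A B] [IsDedekindDomain A] in
theorem valuation_algebraMap_le_one (c : A) : w.valuation L (algebraMap A L c) ≤ 1 := by
  rw [IsScalarTower.algebraMap_apply A B L]
  exact valuation_le_one w _

omit [Module.IsTorsionFree A B] [Module.Finite A B] [IsDedekindDomain A] in
/-- replacing the `y s` by elements of `B` which are congruent to them -/
theorem valuation_sum_sub_lt {n : ℕ} (c : Fin n → A) (y : Fin n → L) (d : Fin n → B)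
    (hd : ∀ s, w.valuation L (algebraMap B L (d s) - y s) < 1) :
    w.valuation L (algebraMap B L (∑ s, algebraMap A B (c s) * d s)
      - ∑ s, algebraMap A L (c s) * y s) < 1 := by
  rw [map_sum, ← Finset.sum_sub_distrib]
  refine Valuation.map_sum_lt _ one_ne_zero fun s _ => ?_
  rw [map_mul, ← IsScalarTower.algebraMap_apply A B L, ← mul_sub, map_mul]
  calc w.valuation L (algebraMap A L (c s)) * w.valuation L (algebraMap B L (d s) - y s)
      ≤ 1 * w.valuation L (algebraMap B L (d s) - y s) :=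
        mul_le_mul_left (valuation_algebraMap_le_one L w (c s)) _
    _ < 1 := by rw [one_mul]; exact hd s

omit [Module.IsTorsionFree A B] [Module.Finite A B] [IsDedekindDomain A] in
theorem exists_approx {z : L} (hz : w.valuation L z ≤ 1) :
    ∃ d : B, w.valuation L (algebraMap B L d - z) < 1 := by
  obtain ⟨d, hd⟩ := exists_valuation_sub_lt_of_integer w hz 1
  exact ⟨d, by simpa using hd⟩

omit [Module.IsTorsionFree A B] [Module.Finite A B] in
theorem mk_sum_eq {n : ℕ} (c : Fin n → A) (d : Fin n → B) :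
    ∑ s, Ideal.Quotient.mk v.asIdeal (c s) • Ideal.Quotient.mk w.asIdeal (d s)
      = Ideal.Quotient.mk w.asIdeal (∑ s, algebraMap A B (c s) * d s) := by
  rw [map_sum]
  refine Finset.sum_congr rfl fun s _ => ?_
  rw [Algebra.smul_def, Ideal.Quotient.algebraMap_mk_of_liesOver, map_mul]

omit [Module.IsTorsionFree A B] [Module.Finite A B] in
/-- residual independence -/
theorem linearIndependent_mk {n : ℕ} (y : Fin n → L) (d : Fin n → B)
    (hd : ∀ s, w.valuation L (algebraMap B L (d s) - y s) < 1)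
    (hind : ∀ c : Fin n → A, w.valuation L (∑ s, algebraMap A L (c s) * y s) < 1 →
      ∀ s, c s ∈ v.asIdeal) :
    LinearIndependent (A ⧸ v.asIdeal) (fun s => Ideal.Quotient.mk w.asIdeal (d s)) := by
  rw [Fintype.linearIndependent_iff]
  intro g hg s
  choose c hc using fun s => Ideal.Quotient.mk_surjective (g s)
  simp only [← hc] at hg ⊢
  rw [mk_sum_eq, Ideal.Quotient.eq_zero_iff_mem, ← valuation_lt_one_iff_mem (K := L)] at hg
  rw [Ideal.Quotient.eq_zero_iff_mem]
  refine hind c ?_ s
  have h1 := valuation_sum_sub_lt L w c y d hd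
  have h2 : ∑ s, algebraMap A L (c s) * y s = algebraMap B L (∑ s, algebraMap A B (c s) * d s)
      - (algebraMap B L (∑ s, algebraMap A B (c s) * d s)
        - ∑ s, algebraMap A L (c s) * y s) := by ring
  rw [h2]
  exact Valuation.map_sub_lt _ hg h1

theorem le_inertiaDeg' {n : ℕ} (y : Fin n → L) (hy : ∀ s, w.valuation L (y s) ≤ 1)
    (hind : ∀ c : Fin n → A, w.valuation L (∑ s, algebraMap A L (c s) * y s) < 1 →
      ∀ s, c s ∈ v.asIdeal) :
    n ≤ v.asIdeal.inertiaDeg' w.asIdeal := by
  choose d hd using fun s => exists_approx L w (hy s)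
  have hli := linearIndependent_mk L v w y d hd hind
  haveI := v.isMaximal
  letI := Ideal.Quotient.field v.asIdeal
  rw [inertiaDeg'_algebraMap]
  simpa using hli.fintype_card_le_finrank

theorem exists_residue_expansion {n : ℕ} (y : Fin n → L) (hy : ∀ s, w.valuation L (y s) ≤ 1)
    (hind : ∀ c : Fin n → A, w.valuation L (∑ s, algebraMap A L (c s) * y s) < 1 →
      ∀ s, c s ∈ v.asIdeal)
    (hn : n = v.asIdeal.inertiaDeg' w.asIdeal) {z : L} (hz : w.valuation L z ≤ 1) :
    ∃ c : Fin n → A, w.valuation L (z - ∑ s, algebraMap A L (c s) * y s) < 1 := by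
  choose d hd using fun s => exists_approx L w (hy s)
  have hli := linearIndependent_mk L v w y d hd hind
  haveI := v.isMaximal
  letI := Ideal.Quotient.field v.asIdeal
  rw [inertiaDeg'_algebraMap] at hn
  have hspan := hli.span_eq_top_of_card_eq_finrank' (by simpa using hn)
  obtain ⟨dz, hdz⟩ := exists_approx L w hz
  have hmem : Ideal.Quotient.mk w.asIdeal dz ∈ Submodule.span (A ⧸ v.asIdeal)
      (Set.range fun s => Ideal.Quotient.mk w.asIdeal (d s)) := hspan ▸ Submodule.mem_top
  obtain ⟨g, hg⟩ := (Submodule.mem_span_range_iff_exists_fun _).mp hmem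
  choose c hc using fun s => Ideal.Quotient.mk_surjective (g s)
  simp only [← hc] at hg
  rw [mk_sum_eq, Ideal.Quotient.eq, ← valuation_lt_one_iff_mem (K := L)] at hg
  replace hg : w.valuation L (algebraMap B L (∑ s, algebraMap A B (c s) * d s)
      - algebraMap B L dz) < 1 := by
    rw [← map_sub]
    exact hg
  refine ⟨c, ?_⟩
  have h1 := valuation_sum_sub_lt L w c y d hd
  have h2 : z - ∑ s, algebraMap A L (c s) * y s
      = (algebraMap B L (∑ s, algebraMap A B (c s) * d s) - ∑ s, algebraMap A L (c s) * y s)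
        - ((algebraMap B L (∑ s, algebraMap A B (c s) * d s) - algebraMap B L dz)
          + (algebraMap B L dz - z)) := by ring
  rw [h2]
  exact Valuation.map_sub_lt _ h1 (Valuation.map_add_lt _ hg hdz)

end One

/-- The squeeze for the adic valuations. -/
theorem count_aklb (K : Type*) [Field K] [Algebra K L] [Algebra A K] [IsFractionRing A K]
    [IsScalarTower A K L] (v : HeightOneSpectrum A) (ϖ : A)
    (hϖ : v.intValuation ϖ = exp (-1 : ℤ))
    {ι : Type*} [Fintype ι] (w : ι → HeightOneSpectrum B)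
    (hw : ∀ i, (w i).asIdeal.LiesOver v.asIdeal) (hinj : Function.Injective w)
    (a b : ι → ℕ) (τ : ι → L) (hτ0 : ∀ i, τ i ≠ 0) (hτ : ∀ i, (w i).valuation L (τ i) < 1)
    (hτa : ∀ i, (w i).valuation L (algebraMap A L ϖ / τ i ^ a i) ≤ 1)
    (y : ∀ i, Fin (b i) → L) (hy : ∀ i s, (w i).valuation L (y i s) ≤ 1)
    (hind : ∀ i (c : Fin (b i) → A),
      (w i).valuation L (∑ s, algebraMap A L (c s) * y i s) < 1 → ∀ s, c s ∈ v.asIdeal)
    (hsum : finrank K L ≤ ∑ i, a i * b i) :
    (∀ w' : HeightOneSpectrum B, w'.asIdeal.LiesOver v.asIdeal → ∃ i, w' = w i) ∧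
    (∀ i, (w i).valuation L (τ i) = exp (-1 : ℤ)) ∧
    (∀ i, (w i).valuation L (algebraMap A L ϖ / τ i ^ a i) = 1) ∧
    (∀ i, ∀ z : L, (w i).valuation L z ≤ 1 → ∃ c : Fin (b i) → A,
      (w i).valuation L (z - ∑ s, algebraMap A L (c s) * y i s) < 1) := by
  haveI := v.isMaximal
  have hA := fun i => haveI := hw i
    le_of_div_pow_le_one ((w i).valuation L) (hτ0 i) (hτ i) (valuation_unif L v (w i) hϖ) (hτa i)
  obtain ⟨h1, h2⟩ := ded_count K L v.asIdeal v.ne_bot (fun i => (w i).asIdeal)
    (fun i => (w i).isPrime) hw (fun i j hij => hinj (HeightOneSpectrum.ext hij)) a b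
    (fun i => (hA i).1)
    (fun i => haveI := hw i; le_inertiaDeg' L v (w i) (y i) (hy i) (hind i)) hsum
  have ha0 : ∀ i, 0 < a i := fun i => by
    haveI := hw i
    rw [(h2 i).1]
    exact Nat.pos_of_ne_zero
      (IsDedekindDomain.ramificationIdx'_ne_zero_of_liesOver (w i).asIdeal v.ne_bot)
  refine ⟨fun w' hw' => ?_, fun i => ((hA i).2 (h2 i).1 (ha0 i)).1,
    fun i => ((hA i).2 (h2 i).1 (ha0 i)).2, fun i z hz => ?_⟩
  · obtain ⟨i, hi⟩ := h1 w'.asIdeal w'.isPrime hw'
    exact ⟨i, HeightOneSpectrum.ext hi⟩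
  · haveI := hw i
    exact exists_residue_expansion L v (w i) (y i) (hy i) (hind i) (h2 i).2 hz

end Fermat.Agent.S36.Mod.Count
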