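/-
S36, modular part, task S36-MOD-CNT (helper151).  Step 3: bridges between valuation subrings of a
field and the height one primes of a Dedekind model.
-/
import Mathlib
import Fermat.Agent.S18.Defs

set_option autoImplicit false
set_option linter.style.haveILetI false

namespace Fermat.Agent.S36.Mod.Count

open IsDedekindDomain WithZero HeightOneSpectrum Fermat.Agent.S18

section Val

variable {F : Type*} [Field F] (V : Valuation F ℤᵐ⁰)

theorem mem_nonunits_valuationSubring_iff (x : F) : x ∈ V.valuationSubring.nonunits ↔ V x < 1 :=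
  (Valuation.isEquiv_iff_val_lt_one.mp (Valuation.isEquiv_valuation_valuationSubring V)).symm

theorem isUnif_of_valuation {τ : F} (h : V τ = exp (-1 : ℤ)) : IsUnif V.valuationSubring τ where
  mem := by
    rw [Valuation.mem_valuationSubring_iff, h, ← exp_zero, exp_le_exp]
    omega
  inv_notMem := by
    rw [Valuation.mem_valuationSubring_iff, map_inv₀, h, ← exp_neg, ← exp_zero, exp_le_exp]
    omega
  exists_zpow := by
    intro y hy
    have h0 : V y ≠ 0 := (Valuation.ne_zero_iff V).mpr hy
    have h1 : V (y / τ ^ (-log (V y))) = 1 := by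
      rw [map_div₀, map_zpow₀, h, ← exp_zsmul, ← exp_zero]
      conv_lhs => rw [← exp_log h0]
      rw [← exp_sub]
      congr 1
      simp
    refine ⟨-log (V y), ?_, ?_⟩
    · rw [Valuation.mem_valuationSubring_iff, h1]
    · rw [Valuation.mem_valuationSubring_iff, map_inv₀, h1, inv_one]

end Val

section Bridge

variable {F : Type*} [Field F] {B : Type*} [CommRing B] [IsDedekindDomain B] [Algebra B F]
  [IsFractionRing B F]

/-- A proper valuation subring of `F` containing the Dedekind model `B` is the valuation ring of
a prime of `B`. -/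
theorem exists_heightOneSpectrum (O : ValuationSubring F)
    (hB : ∀ b : B, algebraMap B F b ∈ O) (hne : O ≠ ⊤) :
    ∃ w : HeightOneSpectrum B, (w.valuation F).valuationSubring = O := by
  let φ : B →+* O := (algebraMap B F).codRestrict O.toSubring hB
  have hmem : ∀ b : B, b ∈ (IsLocalRing.maximalIdeal O).comap φ ↔
      (algebraMap B F b = 0 ∨ (algebraMap B F b)⁻¹ ∉ O) := by
    intro b
    rw [Ideal.mem_comap, IsLocalRing.mem_maximalIdeal, mem_nonunits_iff]
    rcases eq_or_ne (algebraMap B F b) 0 with h0 | h0
    · have : φ b = 0 := Subtype.ext h0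
      simp [this, h0]
    · constructor
      · intro h
        right
        intro hinv
        apply h
        exact ⟨⟨φ b, ⟨_, hinv⟩, Subtype.ext (mul_inv_cancel₀ h0),
          Subtype.ext (inv_mul_cancel₀ h0)⟩, rfl⟩
      · rintro (h | h) hu
        · exact h0 h
        · apply h
          obtain ⟨c, hc⟩ := isUnit_iff_exists_inv.mp hu
          have hc' : algebraMap B F b * (c : F) = 1 := congrArg Subtype.val hc
          rw [← eq_inv_of_mul_eq_one_right hc']
          exact c.2
  let w : HeightOneSpectrum B :=
    { asIdeal := (IsLocalRing.maximalIdeal O).comap φ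
      isPrime := Ideal.comap_isPrime _ _
      ne_bot := by
        intro hbot
        apply hne
        refine SetLike.ext fun x => ⟨fun _ => ValuationSubring.mem_top x, fun _ => ?_⟩
        obtain ⟨a, s, hs, rfl⟩ := IsFractionRing.div_surjective (A := B) x
        rw [div_eq_mul_inv]
        refine mul_mem (hB a) ?_
        by_contra hcon
        have : s ∈ (IsLocalRing.maximalIdeal O).comap φ := (hmem s).mpr (Or.inr hcon)
        rw [hbot, Ideal.mem_bot] at this
        exact nonZeroDivisors.ne_zero hs this }
  refine ⟨w, ?_⟩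
  rw [← HeightOneSpectrum.valuationSubringAtPrime_eq_valuationSubring]
  refine ValuationSubring.eq_of_le_of_ne_top _ ?_ hne
  rw [HeightOneSpectrum.valuationSubringAtPrime_eq_valuationSubring]
  intro x hx
  rw [Valuation.mem_valuationSubring_iff] at hx
  obtain ⟨n, d, hnd⟩ := w.exists_primeCompl_mul_eq_of_integer x hx
  have hd : (d : B) ∉ w.asIdeal := d.2
  rw [show (d : B) ∈ w.asIdeal ↔ _ from hmem d, not_or, not_not] at hd
  have : x = algebraMap B F n * (algebraMap B F d)⁻¹ := by
    rw [← hnd]
    have := hd.1
    field_simp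
  rw [this]
  exact mul_mem (hB n) hd.2

end Bridge

section Ext

variable {F₀ F : Type*} [Field F₀] [Field F] [Algebra F₀ F]

/-- An extension of `V₀` contains the integral closure of `V₀`. -/
theorem mem_of_isIntegral_of_comap_eq (V₀ : ValuationSubring F₀) (W : ValuationSubring F)
    (hW : W.comap (algebraMap F₀ F) = V₀) {x : F} (hx : IsIntegral V₀ x) : x ∈ W := by
  have hle : ∀ c : V₀, algebraMap V₀ F c ∈ W := fun c => by
    have : (c : F₀) ∈ W.comap (algebraMap F₀ F) := hW ▸ c.2
    exact this
  letI : Algebra V₀ W := ((algebraMap V₀ F).codRestrict W.toSubring hle).toAlgebra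
  haveI : IsScalarTower V₀ W F := IsScalarTower.of_algebraMap_eq fun _ => rfl
  have h1 : IsIntegral W x := hx.tower_top
  obtain ⟨y, hy⟩ := IsIntegrallyClosed.isIntegral_iff.mp h1
  exact hy ▸ y.2

theorem ne_top_of_comap_eq {V₀ : ValuationSubring F₀} {ϖ : F₀} (h₀ : IsUnif V₀ ϖ)
    (W : ValuationSubring F) (hW : W.comap (algebraMap F₀ F) = V₀) : W ≠ ⊤ := by
  rintro rfl
  apply h₀.inv_notMem
  rw [← hW]
  exact ValuationSubring.mem_top _

end Ext

end Fermat.Agent.S36.Mod.Count
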